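/-
Fermat/Agent/Jac/Translate14/Degree.lean  (helper14)

JAC brick R2a-TR, part 5: the degree `d` of the divisor at infinity is invariant under base change,
and the twist at infinity shifts the fibrewise Euler characteristic by `m * d`.

* `degInf0 c0 = finrank k (UInf c0)`, `degInf0_eq : degInf0 c0 = finrank k (B1 ⧸ span {c0.s})`;
* `uInfBaseChangeEquiv : UInf (c0.baseChange A) ≃ₗ[A] A ⊗[k] UInf c0`;
* `rankAtStalk_uInf : rankAtStalk (UInf (c0.baseChange A)) p = degInf0 c0`;
* `finrank_uInf_baseChange : finrank K (UInf (c0.baseChange K)) = degInf0 c0` (`K` a field);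
* `chi_twist_baseChange : (L.twist (c0.baseChange A) m).chi p = L.chi p + m * degInf0 c0`.
-/
import Fermat.Agent.Jac.P1CohChi.LineRank
import Fermat.Agent.Jac.BaseChange75.Rings
import Fermat.Agent.Jac.LineOps39.OverLine

set_option autoImplicit false
set_option linter.unusedSectionVars false
set_option linter.style.haveILetI false

universe u

open TensorProduct

namespace Fermat.Agent.Jac.Translate14

open scoped Fermat.Agent.Jac.BaseChange75
open Fermat.Agent.Jac Fermat.Agent.Jac.LineOps39 Fermat.Agent.Jac.BaseChange75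
  Fermat.Agent.Jac.P1CohChi Fermat.Agent.Jac.P1CohChi.LineRank

variable {k : Type u} [Field k] {B0 B1 B01 : Type u} [CommRing B0] [CommRing B1] [CommRing B01]
  [Algebra k B0] [Algebra k B1] [Algebra k B01] [Algebra B0 B01] [Algebra B1 B01]
  [IsScalarTower k B0 B01] [IsScalarTower k B1 B01]
  (c0 : TwoChart k B0 B1 B01)

/-- The degree of the divisor at infinity of the curve over `k`. -/
noncomputable def degInf0 : ℕ := Module.finrank k (UInf c0)

/-- `UInf c ≃ R1 ⧸ (s)`. -/
noncomputable def uInfEquiv {A R0 R1 R01 : Type u} [CommRing A] [CommRing R0] [CommRing R1]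
    [CommRing R01] [Algebra A R0] [Algebra A R1] [Algebra A R01] [Algebra R0 R01] [Algebra R1 R01]
    [IsScalarTower A R0 R01] [IsScalarTower A R1 R01] (c : TwoChart A R0 R1 R01) :
    UInf c ≃ₗ[A] (R1 ⧸ (Ideal.span {c.s} : Ideal R1)) :=
  (quotSpanEquiv (A := A) (R := R1) (c.s ^ 1)).trans
    ((Submodule.quotEquivOfEq (Ideal.span {c.s ^ 1} : Ideal R1) (Ideal.span {c.s} : Ideal R1)
      (by rw [pow_one])).restrictScalars A)

theorem degInf0_eq : degInf0 c0 = Module.finrank k (B1 ⧸ (Ideal.span {c0.s} : Ideal B1)) :=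
  (uInfEquiv c0).finrank_eq

variable (A : Type u) [CommRing A] [Algebra k A]

theorem span_s_baseChange :
    (Ideal.span {(c0.baseChange A).s} : Ideal (A ⊗[k] B1)) =
      (Ideal.span {c0.s} : Ideal B1).map
        (Algebra.TensorProduct.includeRight : B1 →ₐ[k] A ⊗[k] B1) := by
  rw [Ideal.map_span, Set.image_singleton]
  rfl

/-- The fibre at infinity of the structure sheaf commutes with base change. -/
noncomputable def uInfBaseChangeEquiv : UInf (c0.baseChange A) ≃ₗ[A] A ⊗[k] UInf c0 :=
  (uInfEquiv (c0.baseChange A)).trans <|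
    ((Submodule.quotEquivOfEq _ _ (span_s_baseChange c0 A)).restrictScalars A).trans <|
      ((Algebra.TensorProduct.tensorQuotientEquiv (R := k) A B1 A
        (Ideal.span {c0.s} : Ideal B1)).symm.toLinearEquiv).trans <|
        TensorProduct.AlgebraTensorModule.congr (LinearEquiv.refl A A) (uInfEquiv c0).symm

theorem rankAtStalk_uInf (p : PrimeSpectrum A) :
    Module.rankAtStalk (UInf (c0.baseChange A)) p = degInf0 c0 := by
  haveI : Nontrivial A := p.nontrivial
  rw [Module.rankAtStalk_eq_of_equiv (uInfBaseChangeEquiv c0 A),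
    Module.rankAtStalk_eq_finrank_of_free]
  exact Module.finrank_baseChange

theorem finrank_uInf_baseChange (K : Type u) [Field K] [Algebra k K] :
    Module.finrank K (UInf (c0.baseChange K)) = degInf0 c0 := by
  rw [(uInfBaseChangeEquiv c0 K).finrank_eq]
  exact Module.finrank_baseChange

/-- The twist at infinity shifts the fibrewise Euler characteristic by `m * d`. -/
theorem chi_twist_baseChange (hc0 : c0.FiniteProjOverLine)
    {L : QC2 A (A ⊗[k] B0) (A ⊗[k] B1) (A ⊗[k] B01)} (hL : L.IsLine) (m : ℤ)
    (p : PrimeSpectrum A) :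
    (L.twist (c0.baseChange A) m).chi p = L.chi p + m * (degInf0 c0 : ℤ) := by
  have hc := hc0.baseChange A
  rw [chi_twist_line (c0.baseChange A) L hc (finiteOverLine_of_isLine _ hc hL)
    (projOverLine_of_isLine _ hc hL) hL.inv1 m p, rankAtStalk_uInf]

end Fermat.Agent.Jac.Translate14
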