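/-
Fermat/Agent/Jac/Translate14/DownOps.lean  (helper14)

JAC brick R2a-TR, part 2: the down-twist `L ↦ L(-D)` at an effective Cartier divisor `D` (ideal
pair with invertible ideals) is an equivalence on vector bundles, with inverse
`M ↦ O(D) ⊗ M`.

* `upTwist c D h0 h1 M := O(D) ⊗ M`;  `isLine_upTwist`, `isVB_upTwist`;
* `downUpIso : (O(D) ⊗ M)(-D) ≅ M`,  `upDownIso : O(D) ⊗ L(-D) ≅ L`;
* `isoOfDownTwistIso : L(-D) ≅ L'(-D) → L ≅ L'`;
* list versions for `RiemannCover82.Cover.downTwistList`: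
  `isLine_downTwistList`, `isoOfDownTwistListIso`, `exists_downTwistList_iso`.
-/
import Fermat.Agent.Jac.LineOps39.IdealSheaf
import Fermat.Agent.Jac.Cover12.TwistComm

set_option autoImplicit false
set_option linter.unusedSectionVars false

universe u

open TensorProduct

namespace Fermat.Agent.Jac.Translate14

open Fermat.Agent.Jac Fermat.Agent.Jac.LineOps39 Fermat.Agent.Jac.RiemannCover82.Cover
  Fermat.Agent.Jac.Cover12.TwistComm

variable {A R0 R1 R01 : Type u} [CommRing A] [CommRing R0] [CommRing R1] [CommRing R01]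
  [Algebra A R0] [Algebra A R1] [Algebra A R01] [Algebra R0 R01] [Algebra R1 R01]
  [IsScalarTower A R0 R01] [IsScalarTower A R1 R01] (c : TwoChart A R0 R1 R01)

section Single

variable (D : IdealPair R0 R1 R01) (h0 : Module.Invertible R0 D.I0)
  (h1 : Module.Invertible R1 D.I1)

/-- The up-twist `M(D) := O(D) ⊗ M` at an effective Cartier divisor. -/
noncomputable def upTwist (M : QC2 A R0 R1 R01) : QC2 A R0 R1 R01 :=
  tensor (ofDivisor c D (isVB_of_isLine (isLine_ofIdeals c D h0 h1))) M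

theorem isLine_upTwist {M : QC2 A R0 R1 R01} (hM : M.IsLine) : (upTwist c D h0 h1 M).IsLine :=
  isLine_tensor (isLine_ofDivisor c D h0 h1) hM

theorem isVB_upTwist {M : QC2 A R0 R1 R01} (hM : M.IsVB) : (upTwist c D h0 h1 M).IsVB :=
  isVB_tensor (isVB_of_isLine (isLine_ofDivisor c D h0 h1)) hM

/-- `O(-D) ⊗ (O(D) ⊗ M) ≅ M`. -/
noncomputable def ofIdealsUpIso (M : QC2 A R0 R1 R01) :
    QC2.Iso (tensor (ofIdeals c D) (upTwist c D h0 h1 M)) M :=
  isoTrans (isoSymm (tensorAssoc (ofIdeals c D)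
      (ofDivisor c D (isVB_of_isLine (isLine_ofIdeals c D h0 h1))) M))
    (isoTrans (tensorIso (isoTrans (tensorComm (ofIdeals c D)
        (ofDivisor c D (isVB_of_isLine (isLine_ofIdeals c D h0 h1))))
        (ofDivisorTensorIso c D h0 h1)) (isoRefl M))
      (tensorUnitLeft M))

/-- `(O(D) ⊗ M)(-D) ≅ M` for a vector bundle `M`. -/
noncomputable def downUpIso {M : QC2 A R0 R1 R01} (hM : M.IsVB) :
    QC2.Iso (downTwist c (upTwist c D h0 h1 M) D) M :=
  isoTrans (isoSymm (tensorOfIdealsIso c D (isVB_upTwist c D h0 h1 hM)))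
    (ofIdealsUpIso c D h0 h1 M)

/-- `O(D) ⊗ L(-D) ≅ L` for a vector bundle `L`. -/
noncomputable def upDownIso {L : QC2 A R0 R1 R01} (hL : L.IsVB) :
    QC2.Iso (upTwist c D h0 h1 (downTwist c L D)) L :=
  isoTrans (tensorIso (isoRefl _) (isoSymm (tensorOfIdealsIso c D hL)))
    (isoTrans (isoSymm (tensorAssoc
        (ofDivisor c D (isVB_of_isLine (isLine_ofIdeals c D h0 h1))) (ofIdeals c D) L))
      (isoTrans (tensorIso (ofDivisorTensorIso c D h0 h1) (isoRefl L)) (tensorUnitLeft L)))

/-- `L ≅ L'` implies `O(D) ⊗ L ≅ O(D) ⊗ L'`. -/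
noncomputable def upTwistCongr {M M' : QC2 A R0 R1 R01} (e : QC2.Iso M M') :
    QC2.Iso (upTwist c D h0 h1 M) (upTwist c D h0 h1 M') :=
  tensorIso (isoRefl _) e

/-- `L(-D) ≅ L'(-D)` implies `L ≅ L'`, for vector bundles. -/
noncomputable def isoOfDownTwistIso {L L' : QC2 A R0 R1 R01} (hL : L.IsVB) (hL' : L'.IsVB)
    (e : QC2.Iso (downTwist c L D) (downTwist c L' D)) : QC2.Iso L L' :=
  isoTrans (isoSymm (upDownIso c D h0 h1 hL))
    (isoTrans (upTwistCongr c D h0 h1 e) (upDownIso c D h0 h1 hL'))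

end Single

section ListOps

/-- All points of the list are effective Cartier divisors (both chart ideals of the closure are
invertible modules). -/
def CartierList (l : List (Ideal R0)) : Prop :=
  ∀ m ∈ l, Module.Invertible R0 m ∧ Module.Invertible R1 (IdealPair.ofChart0 c m).I1

theorem cartierList_nil : CartierList c ([] : List (Ideal R0)) := fun _ h => by simp at h

theorem CartierList.head {m : Ideal R0} {l : List (Ideal R0)} (h : CartierList c (m :: l)) :
    Module.Invertible R0 m ∧ Module.Invertible R1 (IdealPair.ofChart0 c m).I1 :=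
  h m (List.mem_cons_self ..)

theorem CartierList.tail {m : Ideal R0} {l : List (Ideal R0)} (h : CartierList c (m :: l)) :
    CartierList c l := fun p hp => h p (List.mem_cons_of_mem _ hp)

theorem isLine_downTwistList :
    ∀ (l : List (Ideal R0)) (_ : CartierList c l) {L : QC2 A R0 R1 R01}, L.IsLine →
      (downTwistList c L l).IsLine
  | [], _, _, hL => hL
  | _ :: l, hl, _, hL =>
    isLine_downTwistList l hl.tail (isLine_downTwist c hL _ hl.head.1 hl.head.2)

/-- `L(-Σ l) ≅ L'(-Σ l)` implies `L ≅ L'`, for line bundles. -/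
noncomputable def isoOfDownTwistListIso :
    ∀ (l : List (Ideal R0)) (_ : CartierList c l) {L L' : QC2 A R0 R1 R01}, L.IsLine → L'.IsLine →
      QC2.Iso (downTwistList c L l) (downTwistList c L' l) → QC2.Iso L L'
  | [], _, _, _, _, _, e => e
  | m :: l, hl, _, _, hL, hL', e =>
    isoOfDownTwistIso c (IdealPair.ofChart0 c m) hl.head.1 hl.head.2 (isVB_of_isLine hL)
      (isVB_of_isLine hL')
      (isoOfDownTwistListIso l hl.tail (isLine_downTwist c hL _ hl.head.1 hl.head.2)
        (isLine_downTwist c hL' _ hl.head.1 hl.head.2) e)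

/-- Every line bundle is an iterated down-twist of a line bundle. -/
theorem exists_downTwistList_iso :
    ∀ (l : List (Ideal R0)) (_ : CartierList c l) {M : QC2 A R0 R1 R01}, M.IsLine →
      ∃ L : QC2 A R0 R1 R01, L.IsLine ∧ Nonempty (QC2.Iso (downTwistList c L l) M)
  | [], _, M, hM => ⟨M, hM, ⟨isoRefl M⟩⟩
  | m :: l, hl, M, hM => by
    obtain ⟨L1, hL1, ⟨e1⟩⟩ := exists_downTwistList_iso l hl.tail hM
    refine ⟨upTwist c (IdealPair.ofChart0 c m) hl.head.1 hl.head.2 L1,
      isLine_upTwist c _ hl.head.1 hl.head.2 hL1, ⟨?_⟩⟩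
    exact isoTrans (downTwistListCongr c l
      (downUpIso c (IdealPair.ofChart0 c m) hl.head.1 hl.head.2 (isVB_of_isLine hL1))) e1

end ListOps

end Fermat.Agent.Jac.Translate14
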