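/-
Fermat/Agent/Jac/Translate14/Point.lean  (helper14)

JAC brick R2a-TR, part 3: the `A`-points of chart 0 induced by `k`-points `q : B0 →ₐ[k] k`, as
relative effective Cartier divisors on the base-changed curve `c0.baseChange A`.

* `ptPair0 c0 q A`            : the ideal pair of the closure of the `A`-point;
* `t_sub_mem_ptIdeal`, `unit_mod_ptPair0` : `t ≡ q(t)` and `s` is invertible modulo the closure;
* `invertible_ptIdeal`, `invertible_ptPair0_I1` : both chart ideals are invertible modules when
  `ker q` is an invertible `B0`-module;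
* `flat_quot_ptIdeal`, `flat_quot_ptPair0_I1`   : the quotients are flat over `A`;
* `isBC_ptPair0`              : compatibility with base change `A → A'`;
* `liftDataDownTwistPt`       : `L(-Q)` commutes with base change (`LiftData`).
-/
import Fermat.Agent.Jac.AlgChart76.Points
import Fermat.Agent.Jac.LineOps39.BCOps
import Fermat.Agent.Jac.LineOps39.PatchInvertible
import Fermat.Agent.Jac.ConverseDiv60BC
import Fermat.Agent.Jac.CurveBaseChange98Point

set_option autoImplicit false
set_option linter.unusedSectionVars false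
set_option linter.style.haveILetI false

universe u

open TensorProduct

namespace Fermat.Agent.Jac.Translate14

open scoped Fermat.Agent.Jac.BaseChange75
open Fermat.Agent.Jac Fermat.Agent.Jac.LineOps39 Fermat.Agent.Jac.JSmooth85Alg
  Fermat.Agent.Jac.BaseChange75 Fermat.Agent.Jac.AlgChart76

variable {k : Type u} [Field k] {B0 B1 B01 : Type u} [CommRing B0] [CommRing B1] [CommRing B01]
  [Algebra k B0] [Algebra k B1] [Algebra k B01] [Algebra B0 B01] [Algebra B1 B01]
  [IsScalarTower k B0 B01] [IsScalarTower k B1 B01]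
  (c0 : TwoChart k B0 B1 B01)

section OverA

variable (q : B0 →ₐ[k] k) (A : Type u) [CommRing A] [Algebra k A]

/-- The ideal pair of (the closure of) the `A`-point of chart 0 induced by the `k`-point `q`. -/
noncomputable def ptPair0 : IdealPair (A ⊗[k] B0) (A ⊗[k] B1) (A ⊗[k] B01) :=
  IdealPair.ofChart0 (c0.baseChange A) (ptIdeal q A)

@[simp] theorem ptPair0_I0 : (ptPair0 c0 q A).I0 = ptIdeal q A := rfl

/-- `t ≡ q(t)` modulo the ideal of the point. -/
theorem t_sub_mem_ptIdeal :
    (c0.baseChange A).t - algebraMap A (A ⊗[k] B0) (algebraMap k A (q c0.t)) ∈ ptIdeal q A := by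
  rw [mem_ptIdeal, map_sub, baseChange_t, evalA_tmul, Algebra.TensorProduct.algebraMap_apply,
    evalA_tmul]
  simp

/-- `s` is invertible modulo the chart-1 ideal of the closure of the point. -/
theorem unit_mod_ptPair0 :
    algebraMap A (A ⊗[k] B1) (algebraMap k A (q c0.t)) * (c0.baseChange A).s - 1 ∈
      (ptPair0 c0 q A).I1 :=
  ofChart0_unit_mod (c0.baseChange A) (ptIdeal q A) _ (t_sub_mem_ptIdeal c0 q A)

/-- The ideal of the `A`-point is an invertible module. -/
theorem invertible_ptIdeal (hq : Module.Invertible B0 (RingHom.ker q)) :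
    Module.Invertible (A ⊗[k] B0) (ptIdeal q A) := by
  rw [ptIdeal_eq_map]
  exact CurveBaseChange98Point.invertible_extIdeal A (RingHom.ker q)

/-- The chart-1 ideal of the closure of the `A`-point is an invertible module. -/
theorem invertible_ptPair0_I1 (hq : Module.Invertible B0 (RingHom.ker q)) :
    Module.Invertible (A ⊗[k] B1) (ptPair0 c0 q A).I1 :=
  invertible_ofChart0_I1 (c0.baseChange A) (ptIdeal q A) (invertible_ptIdeal q A hq) _
    (t_sub_mem_ptIdeal c0 q A)

/-- The residue ring of the `A`-point is `A`. -/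
noncomputable def quotPtIdealEquiv : ((A ⊗[k] B0) ⧸ ptIdeal q A) ≃ₐ[A] A :=
  Ideal.quotientKerAlgEquivOfSurjective (evalA_surjective q A)

theorem flat_quot_ptIdeal : Module.Flat A ((A ⊗[k] B0) ⧸ ptIdeal q A) :=
  Module.Flat.of_linearEquiv (quotPtIdealEquiv q A).toLinearEquiv

theorem flat_quot_ptPair0_I0 : Module.Flat A ((A ⊗[k] B0) ⧸ (ptPair0 c0 q A).I0) :=
  flat_quot_ptIdeal q A

theorem flat_quot_ptPair0_I1 : Module.Flat A ((A ⊗[k] B1) ⧸ (ptPair0 c0 q A).I1) :=
  haveI := flat_quot_ptPair0_I0 c0 q A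
  ConverseDiv60BC.flat_quot_I1 (c0.baseChange A) (ptPair0 c0 q A) _ (unit_mod_ptPair0 c0 q A)

/-- `L(-Q)` is a line bundle. -/
theorem isLine_downTwist_ptPair0 (hq : Module.Invertible B0 (RingHom.ker q))
    {L : QC2 A (A ⊗[k] B0) (A ⊗[k] B1) (A ⊗[k] B01)} (hL : L.IsLine) :
    (downTwist (c0.baseChange A) L (ptPair0 c0 q A)).IsLine :=
  isLine_downTwist (c0.baseChange A) hL _ (invertible_ptIdeal q A hq)
    (invertible_ptPair0_I1 c0 q A hq)

end OverA

section BaseChange

variable (q : B0 →ₐ[k] k) (A A' : Type u) [CommRing A] [Algebra k A] [CommRing A'] [Algebra k A']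
  [Algebra A A'] [IsScalarTower k A A']

/-- The closure of the point commutes with base change. -/
theorem isBC_ptPair0 : (ptPair0 c0 q A).IsBC (ptPair0 c0 q A') := by
  have h := IdealPair.isBC_ofChart0 (square_comm k A A' B0 B01) (square_comm k A A' B1 B01)
    (c0.baseChange A) (c0.baseChange A') (algebraMap_baseChange_s c0 A A') (ptIdeal q A) _
    (unit_mod_ptPair0 c0 q A)
  rw [ptIdeal_map_left] at h
  exact h

/-- `L(-Q)` commutes with base change. -/
noncomputable def liftDataDownTwistPt
    {L : QC2 A (A ⊗[k] B0) (A ⊗[k] B1) (A ⊗[k] B01)}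
    {L' : QC2 A' (A' ⊗[k] B0) (A' ⊗[k] B1) (A' ⊗[k] B01)} (h : LiftData L L') (hL : L.IsVB) :
    LiftData (downTwist (c0.baseChange A) L (ptPair0 c0 q A))
      (downTwist (c0.baseChange A') L' (ptPair0 c0 q A')) :=
  liftDataDownTwistOfPushout (square_comm k A A' B0 B01) (c0.baseChange A) (c0.baseChange A') h hL
    (isBC_ptPair0 c0 q A A') (flat_quot_ptPair0_I0 c0 q A) (flat_quot_ptPair0_I1 c0 q A)

end BaseChange

end Fermat.Agent.Jac.Translate14
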