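/-
Fermat/Agent/Jac/Translate14/TwistOps.lean  (helper14)

JAC brick R2a-TR (translations of the moduli problem), part 1: functoriality of the twist at
infinity `QC2.twist`.

* `twistCongr`      : `L ≅ L'` implies `L(m) ≅ L'(m)`;
* `twistTwistIso`   : `L(m)(m') ≅ L(m + m')`;  `twistZeroIso : L(0) ≅ L`;
  `twistCancelIso`  : `L(m)(-m) ≅ L`;  `twistCancelIso'` : `L(-m)(m) ≅ L`;
* `isoOfTwistIso`   : `L(m) ≅ L'(m)` implies `L ≅ L'`;
* `liftDataTwist`   : the twist commutes with base change along a cube of rings (`LiftData`);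
* `isLine_twist`, `isLine_of_twist`.
-/
import Fermat.Agent.Jac.P1CohChi.Twist
import Fermat.Agent.Jac.LineOps39.Basic
import Fermat.Agent.Jac.BaseChange75.Cube

set_option autoImplicit false
set_option linter.unusedSectionVars false

universe u

open TensorProduct

namespace Fermat.Agent.Jac.Translate14

open Fermat.Agent.Jac Fermat.Agent.Jac.LineOps39 Fermat.Agent.Jac.P1CohChi
  Fermat.Agent.Jac.JSmooth85Alg

section Iso

variable {A R0 R1 R01 : Type u} [CommRing A] [CommRing R0] [CommRing R1] [CommRing R01]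
  [Algebra A R0] [Algebra A R1] [Algebra A R01] [Algebra R0 R01] [Algebra R1 R01]
  [IsScalarTower A R0 R01] [IsScalarTower A R1 R01] (c : TwoChart A R0 R1 R01)

/-- `L ≅ L'` implies `L(m) ≅ L'(m)`. -/
def twistCongr {L L' : QC2 A R0 R1 R01} (e : QC2.Iso L L') (m : ℤ) :
    QC2.Iso (L.twist c m) (L'.twist c m) where
  e0 := e.e0
  e1 := e.e1
  e01 := e.e01
  comm0 := e.comm0
  comm1 x := by
    show e.e01 (((tUnit c ^ m : R01ˣ) : R01) • L.r1 x) =
      ((tUnit c ^ m : R01ˣ) : R01) • L'.r1 (e.e1 x)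
    rw [map_smul, e.comm1]

/-- `L(m)(m') ≅ L(m + m')`. -/
def twistTwistIso (L : QC2 A R0 R1 R01) (m m' : ℤ) :
    QC2.Iso ((L.twist c m).twist c m') (L.twist c (m + m')) where
  e0 := LinearEquiv.refl R0 L.N0
  e1 := LinearEquiv.refl R1 L.N1
  e01 := LinearEquiv.refl R01 L.N01
  comm0 _ := rfl
  comm1 x := by
    show ((tUnit c ^ m' : R01ˣ) : R01) • (((tUnit c ^ m : R01ˣ) : R01) • L.r1 x) =
      ((tUnit c ^ (m + m') : R01ˣ) : R01) • L.r1 x
    rw [smul_smul, ← Units.val_mul, ← zpow_add, add_comm]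

/-- `L(0) ≅ L`. -/
def twistZeroIso (L : QC2 A R0 R1 R01) : QC2.Iso (L.twist c 0) L where
  e0 := LinearEquiv.refl R0 L.N0
  e1 := LinearEquiv.refl R1 L.N1
  e01 := LinearEquiv.refl R01 L.N01
  comm0 _ := rfl
  comm1 x := by
    show ((tUnit c ^ (0 : ℤ) : R01ˣ) : R01) • L.r1 x = L.r1 x
    rw [zpow_zero, Units.val_one, one_smul]

/-- `L(m)(-m) ≅ L`. -/
def twistCancelIso (L : QC2 A R0 R1 R01) (m : ℤ) :
    QC2.Iso ((L.twist c m).twist c (-m)) L where
  e0 := LinearEquiv.refl R0 L.N0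
  e1 := LinearEquiv.refl R1 L.N1
  e01 := LinearEquiv.refl R01 L.N01
  comm0 _ := rfl
  comm1 x := by
    show ((tUnit c ^ (-m) : R01ˣ) : R01) • (((tUnit c ^ m : R01ˣ) : R01) • L.r1 x) = L.r1 x
    rw [smul_smul, ← Units.val_mul, ← zpow_add, neg_add_cancel, zpow_zero, Units.val_one, one_smul]

/-- `L(-m)(m) ≅ L`. -/
def twistCancelIso' (L : QC2 A R0 R1 R01) (m : ℤ) :
    QC2.Iso ((L.twist c (-m)).twist c m) L where
  e0 := LinearEquiv.refl R0 L.N0
  e1 := LinearEquiv.refl R1 L.N1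
  e01 := LinearEquiv.refl R01 L.N01
  comm0 _ := rfl
  comm1 x := by
    show ((tUnit c ^ m : R01ˣ) : R01) • (((tUnit c ^ (-m) : R01ˣ) : R01) • L.r1 x) = L.r1 x
    rw [smul_smul, ← Units.val_mul, ← zpow_add, add_neg_cancel, zpow_zero, Units.val_one, one_smul]

/-- `L(m) ≅ L'(m)` implies `L ≅ L'`. -/
def isoOfTwistIso {L L' : QC2 A R0 R1 R01} (m : ℤ)
    (e : QC2.Iso (L.twist c m) (L'.twist c m)) : QC2.Iso L L' :=
  isoTrans (isoSymm (twistCancelIso c L m))
    (isoTrans (twistCongr c e (-m)) (twistCancelIso c L' m))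

theorem isLine_twist {L : QC2 A R0 R1 R01} (hL : L.IsLine) (m : ℤ) : (L.twist c m).IsLine :=
  ⟨hL.inv0, hL.inv1⟩

theorem isLine_of_twist {L : QC2 A R0 R1 R01} (m : ℤ) (hL : (L.twist c m).IsLine) : L.IsLine :=
  ⟨hL.inv0, hL.inv1⟩

theorem isVB_twist {L : QC2 A R0 R1 R01} (hL : L.IsVB) (m : ℤ) : (L.twist c m).IsVB :=
  ⟨hL.fin0, hL.proj0, hL.fin1, hL.proj1⟩

end Iso

section Cube

variable {A R0 R1 R01 A' R0' R1' R01' : Type u}
  [CommRing A] [CommRing R0] [CommRing R1] [CommRing R01]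
  [Algebra A R0] [Algebra A R1] [Algebra A R01] [Algebra R0 R01] [Algebra R1 R01]
  [IsScalarTower A R0 R01] [IsScalarTower A R1 R01]
  [CommRing A'] [CommRing R0'] [CommRing R1'] [CommRing R01']
  [Algebra A' R0'] [Algebra A' R1'] [Algebra A' R01'] [Algebra R0' R01'] [Algebra R1' R01']
  [IsScalarTower A' R0' R01'] [IsScalarTower A' R1' R01']
  [Algebra R0 R0'] [Algebra R1 R1'] [Algebra R01 R01']

/-- The unit `t` of the overlap is compatible with a cube of rings. -/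
theorem map_tUnit
    (hc0 : (algebraMap R0' R01').comp (algebraMap R0 R0') =
      (algebraMap R01 R01').comp (algebraMap R0 R01))
    (c : TwoChart A R0 R1 R01) (c' : TwoChart A' R0' R1' R01')
    (ht : algebraMap R0 R0' c.t = c'.t) :
    Units.map (algebraMap R01 R01' : R01 →* R01') (tUnit c) = tUnit c' := by
  apply Units.ext
  show algebraMap R01 R01' (algebraMap R0 R01 c.t) = algebraMap R0' R01' c'.t
  rw [← ht]
  exact (RingHom.congr_fun hc0 c.t).symm

theorem map_tUnit_zpow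
    (hc0 : (algebraMap R0' R01').comp (algebraMap R0 R0') =
      (algebraMap R01 R01').comp (algebraMap R0 R01))
    (c : TwoChart A R0 R1 R01) (c' : TwoChart A' R0' R1' R01')
    (ht : algebraMap R0 R0' c.t = c'.t) (m : ℤ) :
    algebraMap R01 R01' ((tUnit c ^ m : R01ˣ) : R01) = ((tUnit c' ^ m : R01'ˣ) : R01') := by
  rw [← map_tUnit hc0 c c' ht, ← map_zpow]
  rfl

/-- The twist at infinity commutes with base change along a cube of rings. -/
noncomputable def liftDataTwist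
    (hc0 : (algebraMap R0' R01').comp (algebraMap R0 R0') =
      (algebraMap R01 R01').comp (algebraMap R0 R01))
    (c : TwoChart A R0 R1 R01) (c' : TwoChart A' R0' R1' R01')
    (ht : algebraMap R0 R0' c.t = c'.t)
    {L : QC2 A R0 R1 R01} {L' : QC2 A' R0' R1' R01'} (h : LiftData L L') (m : ℤ) :
    LiftData (L.twist c m) (L'.twist c' m) where
  e0 := h.e0
  e1 := h.e1
  e01 := h.e01
  comm0 := h.comm0
  comm1 x := by
    show h.e01 ((1 : R01') ⊗ₜ[R01] (((tUnit c ^ m : R01ˣ) : R01) • L.r1 x)) =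
      ((tUnit c' ^ m : R01'ˣ) : R01') • L'.r1 (h.e1 (1 ⊗ₜ x))
    have key : (1 : R01') ⊗ₜ[R01] (((tUnit c ^ m : R01ˣ) : R01) • L.r1 x) =
        algebraMap R01 R01' ((tUnit c ^ m : R01ˣ) : R01) • ((1 : R01') ⊗ₜ[R01] L.r1 x) := by
      rw [TensorProduct.smul_tmul', smul_eq_mul, mul_one, ← TensorProduct.smul_tmul,
        Algebra.smul_def, mul_one]
    rw [key, map_smul, h.comm1, map_tUnit_zpow hc0 c c' ht]

end Cube

end Fermat.Agent.Jac.Translate14
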