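/-
Fermat/Agent/Jac/Translate14/Rigid.lean  (helper14)

JAC brick R2a-TR, part 4: rigidifiability at the base point `P0` (a point at infinity, `s(P0) = 0`)
is unchanged by the twist at infinity and by down-twists at points of chart 0.

* `bijective_baseChange_subtype_smul_top` : if `f ∈ I` maps to a unit of the `R`-algebra `S`, then
  `S ⊗[R] (I • N) → S ⊗[R] N` is bijective;
* `rigidMod_smul_top_iff`                 : `RigidMod e A (I • N) ↔ RigidMod e A N`;
* `rigidifiable_twist_iff`, `rigidifiable_downTwist_ptPair0_iff`.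
-/
import Fermat.Agent.Jac.Translate14.Point
import Fermat.Agent.Jac.Translate14.TwistOps
import Fermat.Agent.Jac.AlgChart76.StdCut

set_option autoImplicit false
set_option linter.unusedSectionVars false
set_option linter.style.haveILetI false

universe u

open TensorProduct

namespace Fermat.Agent.Jac.Translate14

open scoped Fermat.Agent.Jac.BaseChange75
open Fermat.Agent.Jac Fermat.Agent.Jac.LineOps39 Fermat.Agent.Jac.JSmooth85Alg
  Fermat.Agent.Jac.BaseChange75 Fermat.Agent.Jac.AlgChart76

section Abstract

variable {R S N : Type u} [CommRing R] [CommRing S] [Algebra R S] [AddCommGroup N] [Module R N]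

/-- If `f ∈ I` maps to a unit of `S`, the inclusion `I • N → N` becomes bijective after base
change to `S`. -/
theorem bijective_baseChange_subtype_smul_top (I : Ideal R) (f : R) (hf : f ∈ I)
    (hu : IsUnit (algebraMap R S f)) :
    Function.Bijective ((I • (⊤ : Submodule R N)).subtype.baseChange S) := by
  set ι : ↥(I • (⊤ : Submodule R N)) →ₗ[R] N := (I • (⊤ : Submodule R N)).subtype with hι
  let μ : N →ₗ[R] ↥(I • (⊤ : Submodule R N)) :=
    LinearMap.codRestrict _ (f • (LinearMap.id : N →ₗ[R] N))
      (fun n => Submodule.smul_mem_smul hf Submodule.mem_top)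
  have h1 : ∀ z : S ⊗[R] N, ι.baseChange S (μ.baseChange S z) = algebraMap R S f • z := by
    intro z
    induction z using TensorProduct.induction_on with
    | zero => simp
    | add x y hx hy => rw [map_add, map_add, hx, hy, smul_add]
    | tmul a n =>
      rw [LinearMap.baseChange_tmul, LinearMap.baseChange_tmul]
      show a ⊗ₜ[R] (f • n) = algebraMap R S f • (a ⊗ₜ[R] n)
      rw [TensorProduct.smul_tmul', smul_eq_mul, ← TensorProduct.smul_tmul, Algebra.smul_def]
  have h2 : ∀ z : S ⊗[R] ↥(I • (⊤ : Submodule R N)),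
      μ.baseChange S (ι.baseChange S z) = algebraMap R S f • z := by
    intro z
    induction z using TensorProduct.induction_on with
    | zero => simp
    | add x y hx hy => rw [map_add, map_add, hx, hy, smul_add]
    | tmul a n =>
      rw [LinearMap.baseChange_tmul, LinearMap.baseChange_tmul]
      have : μ (ι n) = f • n := Subtype.ext rfl
      rw [this, TensorProduct.smul_tmul', smul_eq_mul, ← TensorProduct.smul_tmul,
        Algebra.smul_def]
  obtain ⟨u, hu⟩ := hu
  constructor
  · intro x y hxy
    have := congrArg (μ.baseChange S) hxy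
    rw [h2, h2, ← hu] at this
    have h3 := congrArg (fun z => (↑u⁻¹ : S) • z) this
    simpa [smul_smul] using h3
  · intro y
    refine ⟨μ.baseChange S ((↑u⁻¹ : S) • y), ?_⟩
    rw [h1, ← hu, smul_smul, Units.mul_inv, one_smul]

end Abstract

section Rigid

variable {k : Type u} [Field k] {B : Type u} [CommRing B] [Algebra k B]

/-- The fibre at the `A`-point induced by `e` does not see the difference between `I • N` and `N`
if some element of `I` does not vanish at the point. -/
theorem rigidMod_smul_top_iff (e : B →ₐ[k] k) (A : Type u) [CommRing A] [Algebra k A]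
    (N : Type u) [AddCommGroup N] [Module (A ⊗[k] B) N] (I : Ideal (A ⊗[k] B)) (f : A ⊗[k] B)
    (hf : f ∈ I) (hu : IsUnit (evalA e A f)) :
    RigidMod e A ↥(I • (⊤ : Submodule (A ⊗[k] B) N)) ↔ RigidMod e A N := by
  letI := algEval e A
  have hb := bijective_baseChange_subtype_smul_top (S := A) (N := N) I f hf hu
  let E : A ⊗[A ⊗[k] B] ↥(I • (⊤ : Submodule (A ⊗[k] B) N)) ≃ₗ[A] A ⊗[A ⊗[k] B] N :=
    LinearEquiv.ofBijective _ hb
  constructor
  · rintro ⟨ρ⟩
    exact ⟨E.symm ≪≫ₗ ρ⟩
  · rintro ⟨ρ⟩
    exact ⟨E ≪≫ₗ ρ⟩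

end Rigid

section TwoChart

variable {k : Type u} [Field k] {B0 B1 B01 : Type u} [CommRing B0] [CommRing B1] [CommRing B01]
  [Algebra k B0] [Algebra k B1] [Algebra k B01] [Algebra B0 B01] [Algebra B1 B01]
  [IsScalarTower k B0 B01] [IsScalarTower k B1 B01]
  (c0 : TwoChart k B0 B1 B01) (P0 : B1 →ₐ[k] k)
  {A : Type u} [CommRing A] [Algebra k A]

/-- Rigidifiability only depends on the chart-1 module: it is unchanged by the twist at
infinity. -/
theorem rigidifiable_twist_iff (L : QCA k B0 B1 B01 A) (m : ℤ) :
    Rigidifiable P0 (L.twist (c0.baseChange A) m) ↔ Rigidifiable P0 L := Iff.rfl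

/-- Rigidifiability at a point at infinity is unchanged by the down-twist at a point of
chart 0. -/
theorem rigidifiable_downTwist_ptPair0_iff (hP0 : P0 c0.s = 0) (q : B0 →ₐ[k] k)
    (L : QCA k B0 B1 B01 A) :
    Rigidifiable P0 (downTwist (c0.baseChange A) L (ptPair0 c0 q A)) ↔ Rigidifiable P0 L := by
  refine rigidMod_smul_top_iff P0 A L.N1 (ptPair0 c0 q A).I1 _ (unit_mod_ptPair0 c0 q A) ?_
  rw [map_sub, map_mul, baseChange_s, evalA_tmul, hP0, map_zero, mul_zero, mul_zero, map_one,
    zero_sub]
  exact isUnit_one.neg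

end TwoChart

end Fermat.Agent.Jac.Translate14
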