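/-
Fermat/Agent/Jac/Translate14/Steps.lean  (helper14)

JAC brick R2a-TR, part 6: the two elementary translation steps of `AlgChart76/Transl.lean` as
`QTr`s (helper76's vocabulary), with their effect on rigidifiability at `P0`:

* `twQTr c0 m`        : `T L = twistQC c0 m L` (twist by `m·D∞`), `twQTr_rigid`, `twQTr_chi`;
* `ptQTr c0 hinv q`   : `T L = pointQC c0 q L` (down-twist at the `k`-point `q` of chart 0),
                        `ptQTr_rigid`.
-/
import Fermat.Agent.Jac.AlgChart76.Transl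
import Fermat.Agent.Jac.Translate14.DownOps
import Fermat.Agent.Jac.Translate14.Rigid
import Fermat.Agent.Jac.Translate14.Degree

set_option autoImplicit false
set_option linter.unusedSectionVars false
set_option linter.style.haveILetI false

universe u

open TensorProduct

namespace Fermat.Agent.Jac.Translate14

open scoped Fermat.Agent.Jac.BaseChange75
open Fermat.Agent.Jac Fermat.Agent.Jac.LineOps39 Fermat.Agent.Jac.JSmooth85Alg
  Fermat.Agent.Jac.BaseChange75 Fermat.Agent.Jac.AlgChart76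

variable {k : Type u} [Field k] {B0 B1 B01 : Type u} [CommRing B0] [CommRing B1] [CommRing B01]
  [Algebra k B0] [Algebra k B1] [Algebra k B01] [Algebra B0 B01] [Algebra B1 B01]
  [IsScalarTower k B0 B01] [IsScalarTower k B1 B01]
  (c0 : TwoChart k B0 B1 B01)

/-- The twist by `m·D∞` as a `QTr`. -/
noncomputable def twQTr (m : ℤ) : QTr k B0 B1 B01 where
  T L := twistQC c0 m L
  isLine hL := isLine_twist _ hL m
  iso _ _ := fun ⟨e⟩ => ⟨twistCongr _ e m⟩
  iso_inv _ _ := fun ⟨e⟩ => ⟨isoOfTwistIso _ m e⟩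
  bc {A A' _ _ _ _ _ _ _ _} _ := fun ⟨h⟩ =>
    ⟨liftDataTwist (square_comm k A A' B0 B01) (c0.baseChange A) (c0.baseChange A')
      (algebraMap_baseChange_t c0 A A') h m⟩
  ess {A _ _} M hM :=
    ⟨M.twist (c0.baseChange A) (-m), isLine_twist _ hM (-m), ⟨twistCancelIso' _ M m⟩⟩

@[simp] theorem twQTr_T (m : ℤ) {A : Type u} [CommRing A] [Algebra k A]
    (L : QCA k B0 B1 B01 A) : (twQTr c0 m).T L = twistQC c0 m L := rfl

theorem twQTr_rigid (P0 : B1 →ₐ[k] k) (m : ℤ) : (twQTr c0 m).Rigid P0 :=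
  fun _ _ _ _ _ => Iff.rfl

theorem twQTr_chi (hc0 : c0.FiniteProjOverLine) (m : ℤ) :
    (twQTr c0 m).ChiShift (m * (degInf0 c0 : ℤ)) :=
  fun A _ _ _ hL p => chi_twist_baseChange c0 A hc0 hL m p

/-- The down-twist at the `k`-point `q` of chart 0 as a `QTr`. -/
noncomputable def ptQTr (hinv : ∀ q : B0 →ₐ[k] k, Module.Invertible B0 (RingHom.ker q))
    (q : B0 →ₐ[k] k) : QTr k B0 B1 B01 where
  T L := pointQC c0 q L
  isLine {A _ _ _} hL := isLine_downTwist_ptPair0 c0 q A (hinv q) hL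
  iso {A _ _ _ _} _ _ := fun ⟨e⟩ =>
    ⟨Cover12.TwistComm.downTwistCongr (c0.baseChange A) e (ptPair0 c0 q A)⟩
  iso_inv {A _ _ _ _} hL hL' := fun ⟨e⟩ =>
    ⟨isoOfDownTwistIso (c0.baseChange A) (ptPair0 c0 q A) (invertible_ptIdeal q A (hinv q))
      (invertible_ptPair0_I1 c0 q A (hinv q)) (isVB_of_isLine hL) (isVB_of_isLine hL') e⟩
  bc {A A' _ _ _ _ _ _ _ _} hL := fun ⟨h⟩ =>
    ⟨liftDataDownTwistPt c0 q A A' h (isVB_of_isLine hL)⟩
  ess {A _ _} M hM :=
    ⟨upTwist (c0.baseChange A) (ptPair0 c0 q A) (invertible_ptIdeal q A (hinv q))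
        (invertible_ptPair0_I1 c0 q A (hinv q)) M,
      isLine_upTwist _ _ _ _ hM,
      ⟨downUpIso (c0.baseChange A) (ptPair0 c0 q A) (invertible_ptIdeal q A (hinv q))
        (invertible_ptPair0_I1 c0 q A (hinv q)) (isVB_of_isLine hM)⟩⟩

@[simp] theorem ptQTr_T (hinv : ∀ q : B0 →ₐ[k] k, Module.Invertible B0 (RingHom.ker q))
    (q : B0 →ₐ[k] k) {A : Type u} [CommRing A] [Algebra k A] (L : QCA k B0 B1 B01 A) :
    (ptQTr c0 hinv q).T L = pointQC c0 q L := rfl

theorem ptQTr_rigid (P0 : B1 →ₐ[k] k) (hP0 : P0 c0.s = 0)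
    (hinv : ∀ q : B0 →ₐ[k] k, Module.Invertible B0 (RingHom.ker q)) (q : B0 →ₐ[k] k) :
    (ptQTr c0 hinv q).Rigid P0 :=
  fun _ _ _ L _ => (rigidifiable_downTwist_ptPair0_iff c0 P0 hP0 q L).symm

end Fermat.Agent.Jac.Translate14
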