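/-
Fermat/Agent/Jac/Translate14/PtChi.lean  (helper14)

JAC brick R2a-TR, part 7: the down-twist at a `k`-point of chart 0 lowers the fibrewise Euler
characteristic by one, over every `k`-algebra `A`:

  `chi_pointQC : (pointQC c0 q L).chi p = L.chi p + -1`   (`L` a line bundle over `c0.baseChange A`)

Proof: base change to the residue field `κ(p)` (`liftDataDownTwistPt`,
`ChiBC36.chi_liftData_tensor`) and helper60's `ConverseDiv60Props.chiField_downTwist` over the
field `κ(p)`.

Then the final `translInputs : TranslInputs c0 P0 (degInf0 c0)`.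
-/
import Fermat.Agent.Jac.Translate14.Steps
import Fermat.Agent.Jac.ConverseDiv60Props
import Fermat.Agent.Jac.ChiBC36

set_option autoImplicit false
set_option linter.unusedSectionVars false
set_option linter.style.haveILetI false

universe u

open TensorProduct

namespace Fermat.Agent.Jac.Translate14

open scoped Fermat.Agent.Jac.BaseChange75
open Fermat.Agent.Jac Fermat.Agent.Jac.LineOps39 Fermat.Agent.Jac.JSmooth85Alg
  Fermat.Agent.Jac.BaseChange75 Fermat.Agent.Jac.AlgChart76

variable {k : Type u} [Field k] {B0 B1 B01 : Type u} [CommRing B0] [CommRing B1] [CommRing B01]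
  [Algebra k B0] [Algebra k B1] [Algebra k B01] [Algebra B0 B01] [Algebra B1 B01]
  [IsScalarTower k B0 B01] [IsScalarTower k B1 B01]
  (c0 : TwoChart k B0 B1 B01)

section Field

variable (q : B0 →ₐ[k] k) (K : Type u) [Field K] [Algebra k K]

theorem finite_quot_ptIdeal : Module.Finite K ((K ⊗[k] B0) ⧸ ptIdeal q K) :=
  Module.Finite.equiv (quotPtIdealEquiv q K).toLinearEquiv.symm

theorem finrank_quot_ptIdeal : Module.finrank K ((K ⊗[k] B0) ⧸ ptIdeal q K) = 1 := by
  rw [(quotPtIdealEquiv q K).toLinearEquiv.finrank_eq]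
  exact Module.finrank_self K

/-- Over a field: `χ(L(-Q)) = χ(L) - 1`. -/
theorem chiField_pointQC (hc0 : c0.FiniteProjOverLine) (hq : Module.Invertible B0 (RingHom.ker q))
    {L : QCA k B0 B1 B01 K} (hL : L.IsLine) :
    (pointQC c0 q L).chiField K = L.chiField K + -1 := by
  haveI := finite_quot_ptIdeal q K
  haveI := invertible_ptIdeal q K hq
  have h := ConverseDiv60Props.chiField_downTwist (c0.baseChange K) (hc0.baseChange K) hL
    (ptIdeal q K)
  rw [finrank_quot_ptIdeal] at h
  have h' : (pointQC c0 q L).chiField K + ((1 : ℕ) : ℤ) = L.chiField K := h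
  push_cast at h'
  linarith

end Field

section General

variable (q : B0 →ₐ[k] k) {A : Type u} [CommRing A] [Algebra k A]

/-- The closed point of the spectrum of the residue field at `p` lies over `p`. -/
theorem comap_bot_residueField (p : PrimeSpectrum A) :
    PrimeSpectrum.comap (algebraMap A p.asIdeal.ResidueField)
      (⟨⊥, Ideal.isPrime_bot⟩ : PrimeSpectrum p.asIdeal.ResidueField) = p := by
  apply PrimeSpectrum.ext
  exact Ideal.ker_algebraMap_residueField p.asIdeal

/-- **The down-twist at a `k`-point of chart 0 lowers `χ` by one**, fibrewise over any base. -/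
theorem chi_pointQC (hc0 : c0.FiniteProjOverLine) (hq : Module.Invertible B0 (RingHom.ker q))
    {L : QCA k B0 B1 B01 A} (hL : L.IsLine) (p : PrimeSpectrum A) :
    (pointQC c0 q L).chi p = L.chi p + -1 := by
  let K := p.asIdeal.ResidueField
  let LK : QCA k B0 B1 B01 K :=
    bcCube K (square_comm k A K B0 B01) (square_comm k A K B1 B01) L
  have h : LiftData L LK :=
    liftData_bcCube (square_comm k A K B0 B01) (square_comm k A K B1 B01) L
  have hLK : LK.IsLine := LiftData.isLine h hL
  have h' : LiftData (pointQC c0 q L) (pointQC c0 q LK) :=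
    liftDataDownTwistPt c0 q A K h (isVB_of_isLine hL)
  let pt : PrimeSpectrum K := ⟨⊥, Ideal.isPrime_bot⟩
  have hpt : PrimeSpectrum.comap (algebraMap A K) pt = p := comap_bot_residueField p
  have e1 := ChiBC36.chi_liftData_tensor K h' pt
  have e2 := ChiBC36.chi_liftData_tensor K h pt
  rw [hpt] at e1 e2
  rw [← e1, ← e2, ChiBC36.chi_eq_chiField_of_field, ChiBC36.chi_eq_chiField_of_field]
  exact chiField_pointQC c0 q K hc0 hq hLK

end General

theorem ptQTr_chi (hc0 : c0.FiniteProjOverLine)
    (hinv : ∀ q : B0 →ₐ[k] k, Module.Invertible B0 (RingHom.ker q)) (q : B0 →ₐ[k] k) :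
    (ptQTr c0 hinv q).ChiShift (-1) :=
  fun _ _ _ _ hL p => chi_pointQC c0 q hc0 (hinv q) hL p

/-- **The inputs of helper76's `AlgChart76/Transl.lean`**: the two elementary translation steps
with their effect on rigidifiability at `P0` and on the fibrewise Euler characteristic. -/
noncomputable def translInputs (P0 : B1 →ₐ[k] k) (hc0 : c0.FiniteProjOverLine)
    (hP0 : P0 c0.s = 0) (hinv : ∀ q : B0 →ₐ[k] k, Module.Invertible B0 (RingHom.ker q)) :
    TranslInputs c0 P0 (degInf0 c0) where
  tw := twQTr c0
  tw_T _ _ _ _ _ := rfl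
  tw_rigid := twQTr_rigid c0 P0
  tw_chi := twQTr_chi c0 hc0
  pt := ptQTr c0 hinv
  pt_T _ _ _ _ _ := rfl
  pt_rigid := ptQTr_rigid c0 P0 hP0 hinv
  pt_chi := ptQTr_chi c0 hc0 hinv

end Fermat.Agent.Jac.Translate14
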