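/-
Fermat/Agent/Jac/Translate14/Bridge.lean  (helper14)

JAC brick R2a-TR, part 8: bridges for the consumers of the covering lemma (COV).

* `degInf_baseChange` : helper12's `Cover12.FieldCover.degInf (c0.baseChange K)` is the degree
  `degInf0 c0` of the divisor at infinity over `k`;
* `ptIdeal40_eq`      : helper40's `CurveBaseChange40.ptIdeal K q` is helper76's
  `AlgChart76.ptIdeal q K`;
* `translQC_eq`       : `translQC c0 m l M` in terms of `downTwistList` and point ideals;
* `transl` / `translStd` / `translStd_essSurj` : the translation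
  `Translation (stdFam P0 χ0) (stdFam P0 (χ0 + (m * d + -n)))` with `T = translQC c0 m l`.
-/
import Fermat.Agent.Jac.Translate14.PtChi
import Fermat.Agent.Jac.Cover12.FieldCover
import Fermat.Agent.Jac.CurveBaseChange40

set_option autoImplicit false
set_option linter.unusedSectionVars false
set_option linter.style.haveILetI false

universe u

open TensorProduct

namespace Fermat.Agent.Jac.Translate14

open scoped Fermat.Agent.Jac.BaseChange75
open Fermat.Agent.Jac Fermat.Agent.Jac.LineOps39 Fermat.Agent.Jac.JSmooth85Alg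
  Fermat.Agent.Jac.BaseChange75 Fermat.Agent.Jac.AlgChart76

variable {k : Type u} [Field k] {B0 B1 B01 : Type u} [CommRing B0] [CommRing B1] [CommRing B01]
  [Algebra k B0] [Algebra k B1] [Algebra k B01] [Algebra B0 B01] [Algebra B1 B01]
  [IsScalarTower k B0 B01] [IsScalarTower k B1 B01]
  (c0 : TwoChart k B0 B1 B01)

/-- The degree of the divisor at infinity does not change under base change to a field. -/
theorem degInf_baseChange (K : Type u) [Field K] [Algebra k K] :
    Cover12.FieldCover.degInf (c0.baseChange K) = degInf0 c0 :=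
  finrank_uInf_baseChange c0 K

/-- helper40's point ideal is helper76's point ideal. -/
theorem ptIdeal40_eq {B : Type u} [CommRing B] [Algebra k B] (K : Type u) [Field K] [Algebra k K]
    (q : B →ₐ[k] k) : CurveBaseChange40.ptIdeal K q = ptIdeal q K := rfl

variable (P0 : B1 →ₐ[k] k) (hc0 : c0.FiniteProjOverLine) (hP0 : P0 c0.s = 0)
  (hinv : ∀ q : B0 →ₐ[k] k, Module.Invertible B0 (RingHom.ker q))

/-- The translation `L ↦ L(m·D∞ - q₁ - ⋯ - qₙ)` as a `QTr`. -/
noncomputable def transl (m : ℤ) (l : List (B0 →ₐ[k] k)) : QTr k B0 B1 B01 :=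
  (translInputs c0 P0 hc0 hP0 hinv).transl m l

theorem transl_T (m : ℤ) (l : List (B0 →ₐ[k] k)) {A : Type u} [CommRing A] [Algebra k A]
    (L : QCA k B0 B1 B01 A) : (transl c0 P0 hc0 hP0 hinv m l).T L = translQC c0 m l L :=
  (translInputs c0 P0 hc0 hP0 hinv).transl_T m l L

theorem transl_T_eq_downTwistList (m : ℤ) (l : List (B0 →ₐ[k] k)) {A : Type u} [CommRing A]
    [Algebra k A] (L : QCA k B0 B1 B01 A) :
    (transl c0 P0 hc0 hP0 hinv m l).T L =
      RiemannCover82.Cover.downTwistList (c0.baseChange A) (L.twist (c0.baseChange A) m)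
        (l.map (fun q => ptIdeal q A)) :=
  (transl_T c0 P0 hc0 hP0 hinv m l L).trans (translQC_eq_downTwistList c0 m l L)

/-- The translation of standard moduli problems by `m·D∞ - q₁ - ⋯ - qₙ`. -/
noncomputable def translStd (m : ℤ) (l : List (B0 →ₐ[k] k)) (χ0 : ℤ) :
    Translation (stdFam (B0 := B0) (B01 := B01) P0 χ0)
      (stdFam (B0 := B0) (B01 := B01) P0 (χ0 + (m * (degInf0 c0 : ℤ) + -(l.length : ℤ)))) :=
  (transl c0 P0 hc0 hP0 hinv m l).toStd P0
    ((translInputs c0 P0 hc0 hP0 hinv).transl_rigid m l)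
    ((translInputs c0 P0 hc0 hP0 hinv).transl_chi m l) χ0

theorem translStd_essSurj (m : ℤ) (l : List (B0 →ₐ[k] k)) (χ0 : ℤ) :
    (translStd c0 P0 hc0 hP0 hinv m l χ0).EssSurj :=
  QTr.toStd_essSurj _ P0 _ _ χ0

theorem translStd_T_coe (m : ℤ) (l : List (B0 →ₐ[k] k)) (χ0 : ℤ) {A : Type u} [CommRing A]
    [Algebra k A] (L : (stdFam (B0 := B0) (B01 := B01) P0 χ0).Obj A) :
    ((translStd c0 P0 hc0 hP0 hinv m l χ0).T L).1 = translQC c0 m l L.1 :=
  transl_T c0 P0 hc0 hP0 hinv m l L.1

end Fermat.Agent.Jac.Translate14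

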